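import Mathlib
import Fermat.Prelude.Def_ModularCurve_X0ModL
import Fermat.Agent.H27.Igusa.Chain
import Fermat.Agent.H27.Igusa.Track
import Fermat.Agent.H2.IgusaLevelRel

/-!
# P-IGUSA, IG-E3 side facts

* `evalAt_eval_mem`          : `P(x, y)` lies in every subring containing `x` and `y`
* `isIntegral_of_evalAt_root`: a root `y` of a monic `P(x, Y)` is integral over any subalgebra
  containing `x`
* `isIntegral_jLev_prefix`   : `j(q^{∏ qs})` is integral over `k[j]` (chain of modular equations)
* `chainField_isIntegral`    : the chain field is algebraic over `k(j)`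
* `isIntegral_unitLev`       : the unit `p^12 Δ(q^{Np})/Δ(q^N)` is integral over `k[j]`
* `unitLev_mem_of_jLev_mem`  : part (a) of IG-E3
-/

set_option autoImplicit false

open ModularCurve Polynomial

noncomputable section

namespace Fermat.Agent.H5

open Fermat.Agent.H27

section General

variable {k : Type*} [CommRing k]

/-- `P(x, y)` lies in every subring containing `x` and `y`. -/
theorem evalAt_eval_mem (S : Subring (LaurentSeries k)) {x y : LaurentSeries k}
    (hx : x ∈ S) (hy : y ∈ S) (P : Polynomial (Polynomial ℤ)) :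
    (P.map (evalAt x)).eval y ∈ S := by
  let e : Polynomial ℤ →+* ↥S := Polynomial.eval₂RingHom (Int.castRingHom ↥S) ⟨x, hx⟩
  have he : S.subtype.comp e = evalAt x := by
    refine Polynomial.ringHom_ext' (Subsingleton.elim _ _) ?_
    simp [e, evalAt]
  have : (P.map (evalAt x)).eval y = S.subtype ((P.map e).eval ⟨y, hy⟩) := by
    rw [← he, Polynomial.eval_map, Polynomial.eval_map, Polynomial.hom_eval₂]
    rfl
  rw [this]
  exact Subtype.property _

/-- A root `y` of a monic `P(x, Y)`, `P ∈ ℤ[X][Y]`, is integral over every subalgebra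
containing `x`. -/
theorem isIntegral_of_evalAt_root {R : Type*} [CommRing R] [Algebra R (LaurentSeries k)]
    (S : Subalgebra R (LaurentSeries k)) {x y : LaurentSeries k} (hx : x ∈ S)
    (P : Polynomial (Polynomial ℤ)) (hP : P.Monic) (h : (P.map (evalAt x)).eval y = 0) :
    IsIntegral ↥S y := by
  let e : Polynomial ℤ →+* ↥S := Polynomial.eval₂RingHom (Int.castRingHom ↥S) ⟨x, hx⟩
  have he : (algebraMap ↥S (LaurentSeries k)).comp e = evalAt x := by
    refine Polynomial.ringHom_ext' (Subsingleton.elim _ _) ?_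
    simp [e, evalAt]
  refine ⟨P.map e, hP.map e, ?_⟩
  rw [Polynomial.eval₂_map, he, ← Polynomial.eval_map]
  exact h

end General

/-- integral over the integral closure implies integral -/
theorem isIntegral_of_isIntegral_integralClosure {R A : Type*} [CommRing R] [CommRing A]
    [Algebra R A] (y : A) (h : IsIntegral ↥(integralClosure R A) y) : IsIntegral R y :=
  isIntegral_trans y h

section Chain

variable (k : Type) [Field k]

/-- every prime of the list carries Hecke data -/
def HasDataOn (ps : List ℕ) : Prop :=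
  ∀ q ∈ ps, ∃ (_ : NeZero q) (ζ : kˣ), Nonempty (HeckeDataOver q k ζ)

theorem hasDataOn_of_hasHeckeData [IsAlgClosed k] (hM : HasHeckeData k) (ps : List ℕ)
    (hps : ∀ q ∈ ps, q.Prime ∧ (q : k) ≠ 0) : HasDataOn k ps := by
  intro q hq
  obtain ⟨hqp, hqk⟩ := hps q hq
  have : NeZero q := ⟨hqp.ne_zero⟩
  have : NeZero (q : k) := ⟨hqk⟩
  obtain ⟨ζ, hζ⟩ := HasEnoughRootsOfUnity.exists_primitiveRoot k q
  have hu : IsUnit ζ := hζ.isUnit hqp.ne_zero
  refine ⟨inferInstance, hu.unit, hM q hqp hu.unit ?_⟩
  simpa using hζ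

theorem hasDataOn_prefix {ps qs : List ℕ} (h : qs <+: ps) (hD : HasDataOn k ps) :
    HasDataOn k qs := fun q hq => hD q (h.subset hq)

theorem prod_ne_zero_of_hasDataOn {ps : List ℕ} (hD : HasDataOn k ps) : ps.prod ≠ 0 := by
  rw [Ne, List.prod_eq_zero_iff]
  intro h0
  obtain ⟨h, -, -⟩ := hD 0 h0
  exact h.out rfl

/-- `j(q^{∏ ps})` is integral over `k[j]`. -/
theorem isIntegral_jLev_prod (ps : List ℕ) (hD : HasDataOn k ps) :
    IsIntegral ↥(Algebra.adjoin k {jqModC k}) (jLev k ps.prod) := by
  induction ps using List.reverseRecOn with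
  | nil =>
    rw [List.prod_nil, jLev_one]
    exact isIntegral_algebraMap (x := (⟨jqModC k, Algebra.self_mem_adjoin_singleton k _⟩ :
      ↥(Algebra.adjoin k {jqModC k})))
  | append_singleton qs q ih =>
    have hDqs : HasDataOn k qs := hasDataOn_prefix k (List.prefix_append qs [q]) hD
    have ih' := ih hDqs
    obtain ⟨hq, ζ, ⟨D⟩⟩ := hD q (by simp)
    have hn : qs.prod ≠ 0 := prod_ne_zero_of_hasDataOn k hDqs
    have hrel := Fermat.Agent.H2.Phi_rel k q ζ D qs.prod hn
    rw [List.prod_append, List.prod_singleton]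
    have h1 : IsIntegral ↥(integralClosure ↥(Algebra.adjoin k {jqModC k}) (LaurentSeries k))
        (jLev k (qs.prod * q)) :=
      isIntegral_of_evalAt_root _ (x := jLev k qs.prod) ih' D.Φ D.Φ_monic hrel
    exact isIntegral_of_isIntegral_integralClosure _ h1

open scoped IntermediateField.algebraAdjoinAdjoin in
/-- the chain field is algebraic over `k(j)` -/
theorem chainField_isIntegral (ps : List ℕ) (hD : HasDataOn k ps) :
    ∀ x ∈ chainField k ps, IsIntegral ↥(IntermediateField.adjoin k {jqModC k}) x := by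
  have hle : chainField k ps ≤
      (algebraicClosure ↥(IntermediateField.adjoin k {jqModC k})
        (LaurentSeries k)).restrictScalars k := by
    rw [chainField, IntermediateField.adjoin_le_iff]
    rintro x ⟨qs, hqs, rfl⟩
    have h1 := isIntegral_jLev_prod k qs (hasDataOn_prefix k hqs hD)
    have h2 : IsIntegral ↥(IntermediateField.adjoin k {jqModC k}) (jLev k qs.prod) :=
      h1.tower_top
    show jLev k qs.prod ∈ algebraicClosure _ _
    rw [mem_algebraicClosure_iff]
    exact h2.isAlgebraic
  intro x hx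
  have := hle hx
  rw [IntermediateField.mem_restrictScalars, mem_algebraicClosure_iff] at this
  exact this.isIntegral

/-- the unit `p^12 Δ(q^{Np})/Δ(q^N)` is integral over `k[j]` -/
theorem isIntegral_unitLev (ps : List ℕ) (hD : HasDataOn k ps) (p : ℕ) [NeZero p] (ζ : kˣ)
    (D : HeckeDataOver p k ζ) :
    IsIntegral ↥(Algebra.adjoin k {jqModC k}) (unitLev k ps.prod p) := by
  have hn : ps.prod ≠ 0 := prod_ne_zero_of_hasDataOn k hD
  have hrel := Fermat.Agent.H2.Psi_rel k p ζ D ps.prod hn
  have h1 : IsIntegral ↥(integralClosure ↥(Algebra.adjoin k {jqModC k}) (LaurentSeries k))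
      (unitLev k ps.prod p) :=
    isIntegral_of_evalAt_root _ (x := jLev k ps.prod) (isIntegral_jLev_prod k ps hD)
      D.Ψ D.Ψ_monic hrel
  exact isIntegral_of_isIntegral_integralClosure _ h1

/-- part (a) of IG-E3: if `j(q^{Np})` lies in an intermediate field containing `j(q^N)`,
so does the unit. -/
theorem unitLev_mem_of_jLev_mem (G : IntermediateField k (LaurentSeries k)) (n : ℕ) (hn : n ≠ 0)
    (p : ℕ) [NeZero p] (hp : p.Prime) (ζ : kˣ) (D : HeckeDataOver p k ζ)
    (hx : jLev k n ∈ G) (hy : jLev k (n * p) ∈ G) : unitLev k n p ∈ G := by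
  have hL := Fermat.Agent.H2.L_rel k p ζ D n hn
  have hne := Fermat.Agent.H2.Phi_deriv_ne_zero k p ζ D hp n hn
  have h1 : (D.L.map (evalAt (jLev k n))).eval (jLev k (n * p)) ∈ G :=
    evalAt_eval_mem G.toSubring hx hy D.L
  have h2 : ((D.Φ.map (evalAt (jLev k n))).derivative).eval (jLev k (n * p)) ∈ G := by
    rw [Polynomial.derivative_map]
    exact evalAt_eval_mem G.toSubring hx hy (Polynomial.derivative D.Φ)
  have h3 : unitLev k n p = (D.L.map (evalAt (jLev k n))).eval (jLev k (n * p)) /
      ((D.Φ.map (evalAt (jLev k n))).derivative).eval (jLev k (n * p)) := by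
    rw [hL, mul_div_assoc, div_self hne, mul_one]
  rw [h3]
  exact G.div_mem h1 h2

end Chain

end Fermat.Agent.H5
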