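import Mathlib
import Fermat.Prelude.Def_ModularCurve_X0ModL
import Fermat.Agent.H27.Igusa.Track
import Fermat.Agent.H9.Igusa.OrderCalculus
import Fermat.Agent.H74.IgusaPolyJ

/-!
# P-IGUSA, IG-E3 parts (d)+(e): the norm argument

If every conjugate (over `B = k(j)`) of an element `h` of an algebraic extension `G ⊆ k((q))` of `B`
is, inside `Ω = AlgebraicClosure k((q))`, the image under a Puiseux embedding `ρ` of a nonzero
series of positive order, and `h` is integral over `k[j]`, we get a contradiction: the constant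
coefficient of the minimal polynomial would be a nonzero polynomial in `j` of positive order.
-/

set_option autoImplicit false

open ModularCurve Polynomial

noncomputable section

namespace Fermat.Agent.H5

open Fermat.Agent.H27 Fermat.Agent.H9
open scoped IntermediateField.algebraAdjoinAdjoin

theorem posOrd_neg' {k : Type*} [CommRing k] {f : LaurentSeries k} (hf : PosOrd f) :
    PosOrd (-f) := by
  intro n hn
  rw [HahnSeries.coeff_neg, hf n hn, neg_zero]

theorem posOrd_neg_one_pow_mul {k : Type*} [CommRing k] {f : LaurentSeries k} (hf : PosOrd f)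
    (n : ℕ) : PosOrd ((-1) ^ n * f) := by
  rcases neg_one_pow_eq_or (LaurentSeries k) n with h | h
  · rw [h, one_mul]; exact hf
  · rw [h, neg_one_mul]; exact posOrd_neg' hf

/-- product of a multiset of images of nonzero positive-order series -/
theorem exists_prod_eq_map_posOrd {k : Type*} [Field k] {Ω : Type*} [CommRing Ω]
    (ρ : LaurentSeries k →+* Ω) (s : Multiset Ω)
    (hs : ∀ r ∈ s, ∃ z : LaurentSeries k, PosOrd z ∧ z ≠ 0 ∧ r = ρ z) :
    ∃ Z : LaurentSeries k, Z ≠ 0 ∧ s.prod = ρ Z ∧ ((s = 0 ∧ Z = 1) ∨ PosOrd Z) := by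
  induction s using Multiset.induction_on with
  | empty => exact ⟨1, one_ne_zero, by simp, Or.inl ⟨rfl, rfl⟩⟩
  | cons a s ih =>
    obtain ⟨Z, hZ0, hZ, hZp⟩ := ih (fun r hr => hs r (Multiset.mem_cons_of_mem hr))
    obtain ⟨z, hzp, hz0, hz⟩ := hs a (Multiset.mem_cons_self a s)
    refine ⟨z * Z, mul_ne_zero hz0 hZ0, by rw [Multiset.prod_cons, hz, hZ, map_mul], Or.inr ?_⟩
    rcases hZp with ⟨-, rfl⟩ | hZp
    · rw [mul_one]; exact hzp
    · exact posOrd_mul hzp hZp

/-- **Norm argument**, with the two facts about polynomials in `j` (IG-D2b) as hypotheses. -/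
theorem false_of_roots_posOrd_of (k : Type) [Field k] (M : ℕ) [NeZero M]
    (hpoly : ∀ x : LaurentSeries k, x ∈ IntermediateField.adjoin k {jqModC k} →
      IsIntegral (↥(Algebra.adjoin k {jqModC k})) x →
        ∃ P : Polynomial k, x = Polynomial.aeval (jqModC k) P)
    (hcoeff : ∀ P : Polynomial k, P ≠ 0 →
      ∃ n : ℤ, n ≤ 0 ∧ (Polynomial.aeval (jqModC k) P).coeff n ≠ 0)
    (ρ : LaurentSeries k →+* AlgebraicClosure (LaurentSeries k))
    (hρ : ρ.comp (qExpand k M) = algebraMap (LaurentSeries k) (AlgebraicClosure (LaurentSeries k)))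
    (G : IntermediateField k (LaurentSeries k))
    (hBG : IntermediateField.adjoin k {jqModC k} ≤ G)
    (hGalg : ∀ x ∈ G, IsIntegral (↥(IntermediateField.adjoin k {jqModC k})) x)
    (h : LaurentSeries k) (hh : h ∈ G)
    (hint : IsIntegral (↥(Algebra.adjoin k {jqModC k})) h)
    (hκ : ∀ κ : ↥G →+* AlgebraicClosure (LaurentSeries k),
        (∀ x : ↥G, (x : LaurentSeries k) ∈ IntermediateField.adjoin k {jqModC k} →
            κ x = algebraMap (LaurentSeries k) (AlgebraicClosure (LaurentSeries k)) x) →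
        ∃ z : LaurentSeries k, PosOrd z ∧ z ≠ 0 ∧ κ ⟨h, hh⟩ = ρ z) : False := by
  classical
  let G' : IntermediateField (↥(IntermediateField.adjoin k {jqModC k})) (LaurentSeries k) :=
    IntermediateField.extendScalars hBG
  let x : ↥G' := ⟨h, hh⟩
  have hxint : IsIntegral (↥(IntermediateField.adjoin k {jqModC k})) x :=
    IntermediateField.isIntegral_iff.mpr (hGalg h hh)
  have hK' : ∀ s : ↥G', IsIntegral (↥(IntermediateField.adjoin k {jqModC k})) s ∧
      ((minpoly (↥(IntermediateField.adjoin k {jqModC k})) s).map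
        (algebraMap (↥(IntermediateField.adjoin k {jqModC k}))
          (AlgebraicClosure (LaurentSeries k)))).Splits :=
    fun s => ⟨IntermediateField.isIntegral_iff.mpr (hGalg s.1 s.2), IsAlgClosed.splits _⟩
  have hmx : minpoly (↥(IntermediateField.adjoin k {jqModC k})) x =
      minpoly (↥(IntermediateField.adjoin k {jqModC k})) h := IntermediateField.minpoly_eq x
  have hhint : IsIntegral (↥(IntermediateField.adjoin k {jqModC k})) h := hGalg h hh
  set m := minpoly (↥(IntermediateField.adjoin k {jqModC k})) h with hm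
  have hmonic : m.Monic := minpoly.monic hhint
  set mΩ := m.map (algebraMap (↥(IntermediateField.adjoin k {jqModC k}))
    (AlgebraicClosure (LaurentSeries k))) with hmΩ
  have hsplit : mΩ.Splits := IsAlgClosed.splits _
  have hmΩmonic : mΩ.Monic := hmonic.map _
  have hρinj : Function.Injective ρ := ρ.injective
  -- every root is the image of a positive-order series
  have hroots : ∀ r ∈ mΩ.roots, ∃ z : LaurentSeries k, PosOrd z ∧ z ≠ 0 ∧ r = ρ z := by
    intro r hr
    have hr0 : Polynomial.aeval r (minpoly (↥(IntermediateField.adjoin k {jqModC k})) x) = 0 := by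
      rw [hmx]
      rw [Polynomial.mem_roots hmΩmonic.ne_zero, Polynomial.IsRoot, hmΩ,
        Polynomial.eval_map, ← Polynomial.aeval_def] at hr
      exact hr
    obtain ⟨φ, hφ⟩ := IntermediateField.exists_algHom_of_splits_of_aeval hK' hr0
    let ι : ↥G →+* ↥G' := (G.val : ↥G →+* LaurentSeries k).codRestrict G' (fun y => y.2)
    have hιx : ι ⟨h, hh⟩ = x := rfl
    let κ : ↥G →+* AlgebraicClosure (LaurentSeries k) := (φ : ↥G' →+* _).comp ι
    have hκB : ∀ y : ↥G, (y : LaurentSeries k) ∈ IntermediateField.adjoin k {jqModC k} →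
        κ y = algebraMap (LaurentSeries k) (AlgebraicClosure (LaurentSeries k)) y := by
      intro y hy
      have h1 : ι y =
          algebraMap (↥(IntermediateField.adjoin k {jqModC k})) (↥G') ⟨y.1, hy⟩ := rfl
      show φ (ι y) = _
      rw [h1, AlgHom.commutes]
      rfl
    obtain ⟨z, hzp, hz0, hz⟩ := hκ κ hκB
    refine ⟨z, hzp, hz0, ?_⟩
    rw [← hz, ← hφ]
    rfl
  obtain ⟨Z, hZ0, hZ, hZp⟩ := exists_prod_eq_map_posOrd ρ mΩ.roots hroots
  -- the root multiset is nonempty
  have hdeg : 0 < mΩ.natDegree := by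
    rw [hmΩ, hmonic.natDegree_map]
    exact minpoly.natDegree_pos hhint
  have hne : mΩ.roots ≠ 0 := by
    intro h0
    have := hsplit.natDegree_eq_card_roots
    rw [h0, Multiset.card_zero] at this
    omega
  have hZpos : PosOrd Z := by
    rcases hZp with ⟨h0, -⟩ | hZp
    · exact absurd h0 hne
    · exact hZp
  -- constant coefficient
  set c0 : ↥(IntermediateField.adjoin k {jqModC k}) := m.coeff 0 with hc0
  have hcoeff0 : algebraMap (LaurentSeries k) (AlgebraicClosure (LaurentSeries k)) (c0 : LaurentSeries k)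
      = ρ ((-1) ^ mΩ.natDegree * Z) := by
    have h1 := hsplit.coeff_zero_eq_prod_roots_of_monic hmΩmonic
    rw [hZ, hmΩ, Polynomial.coeff_map] at h1
    rw [map_mul, map_pow, map_neg, map_one]
    rw [← hmΩ] at h1
    rw [← h1]
    rfl
  have hqc0 : qExpand k M (c0 : LaurentSeries k) = (-1) ^ mΩ.natDegree * Z := by
    apply hρinj
    rw [← hcoeff0, ← hρ]
    rfl
  have hc0pos : PosOrd (c0 : LaurentSeries k) :=
    posOrd_of_qExpand M (by rw [hqc0]; exact posOrd_neg_one_pow_mul hZpos _)
  have hc0ne : (c0 : LaurentSeries k) ≠ 0 := by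
    intro h0
    rw [h0, map_zero] at hqc0
    rcases mul_eq_zero.mp hqc0.symm with h1 | h1
    · exact (pow_ne_zero _ (neg_ne_zero.mpr one_ne_zero)) h1
    · exact hZ0 h1
  -- integrality of the constant coefficient over `k[j]`
  have hc0int : IsIntegral (↥(Algebra.adjoin k {jqModC k})) (c0 : LaurentSeries k) := by
    have hdvd : m ∣ (minpoly (↥(Algebra.adjoin k {jqModC k})) h).map
        (algebraMap (↥(Algebra.adjoin k {jqModC k})) (↥(IntermediateField.adjoin k {jqModC k}))) := by
      apply minpoly.dvd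
      rw [Polynomial.aeval_map_algebraMap]
      exact minpoly.aeval _ _
    have hlift := integralClosure.mem_lifts_of_monic_of_dvd_map
      (↥(IntermediateField.adjoin k {jqModC k})) (minpoly.monic hint) hmonic hdvd
    rw [Polynomial.lifts_iff_coeff_lifts] at hlift
    obtain ⟨c, hc⟩ := hlift 0
    have hcint : IsIntegral (↥(Algebra.adjoin k {jqModC k})) c0 := by
      rw [hc0, ← hc]
      exact c.2
    exact hcint.algebraMap (B := LaurentSeries k)
  obtain ⟨P, hP⟩ := hpoly (c0 : LaurentSeries k) c0.2 hc0int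
  have hP0 : P ≠ 0 := by
    rintro rfl
    rw [map_zero] at hP
    exact hc0ne hP
  obtain ⟨n, hn, hn0⟩ := hcoeff P hP0
  exact hn0 (by rw [← hP]; exact hc0pos n hn)

/-- **Norm argument** (IG-E3, parts (d)+(e)). -/
theorem false_of_roots_posOrd (k : Type) [Field k] (M : ℕ) [NeZero M]
    (ρ : LaurentSeries k →+* AlgebraicClosure (LaurentSeries k))
    (hρ : ρ.comp (qExpand k M) = algebraMap (LaurentSeries k) (AlgebraicClosure (LaurentSeries k)))
    (G : IntermediateField k (LaurentSeries k))
    (hBG : IntermediateField.adjoin k {jqModC k} ≤ G)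
    (hGalg : ∀ x ∈ G, IsIntegral (↥(IntermediateField.adjoin k {jqModC k})) x)
    (h : LaurentSeries k) (hh : h ∈ G)
    (hint : IsIntegral (↥(Algebra.adjoin k {jqModC k})) h)
    (hκ : ∀ κ : ↥G →+* AlgebraicClosure (LaurentSeries k),
        (∀ x : ↥G, (x : LaurentSeries k) ∈ IntermediateField.adjoin k {jqModC k} →
            κ x = algebraMap (LaurentSeries k) (AlgebraicClosure (LaurentSeries k)) x) →
        ∃ z : LaurentSeries k, PosOrd z ∧ z ≠ 0 ∧ κ ⟨h, hh⟩ = ρ z) : False :=
  false_of_roots_posOrd_of k M (Fermat.Agent.H74.exists_poly_of_integral k)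
    (Fermat.Agent.H74.exists_coeff_aeval_jq_ne_zero k) ρ hρ G hBG hGalg h hh hint hκ

end Fermat.Agent.H5
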