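import Mathlib

namespace Fermat.Agent.H5

open RingTheory.Sequence

/-- The additive equivalence `R ⧸ r R ≃+ R'` induced by a surjective ring hom with kernel `(r)`. -/
noncomputable def quotSMulTopAddEquivOfSurjective {R R' : Type*} [CommRing R] [CommRing R']
    (f : R →+* R') (hf : Function.Surjective f) (r : R)
    (hker : RingHom.ker f = Ideal.span {r}) : QuotSMulTop r R ≃+ R' :=
  (QuotientAddGroup.quotientAddEquivOfEq (by
    ext x
    rw [AddMonoidHom.mem_ker, Submodule.mem_toAddSubgroup,
      ← Submodule.ideal_span_singleton_smul, smul_eq_mul, Ideal.mul_top, ← hker]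
    rfl)).trans
    (QuotientAddGroup.quotientKerEquivOfSurjective f.toAddMonoidHom hf)

theorem quotSMulTopAddEquivOfSurjective_mk {R R' : Type*} [CommRing R] [CommRing R']
    (f : R →+* R') (hf : Function.Surjective f) (r : R)
    (hker : RingHom.ker f = Ideal.span {r}) (x : R) :
    quotSMulTopAddEquivOfSurjective f hf r hker (Submodule.Quotient.mk x) = f x := rfl

/-- If `f : R →+* R'` is surjective with kernel `(r)`, `r` is a nonzerodivisor, and the image of
`rs` is weakly regular on `R'`, then `r :: rs` is weakly regular on `R`. -/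
theorem isWeaklyRegular_cons_of_surjective {R R' : Type*} [CommRing R] [CommRing R']
    (f : R →+* R') (hf : Function.Surjective f) (r : R) (hr : IsSMulRegular R r)
    (hker : RingHom.ker f = Ideal.span {r}) (rs : List R)
    (h : IsWeaklyRegular R' (rs.map f)) : IsWeaklyRegular R (r :: rs) := by
  refine (isWeaklyRegular_cons_iff R r rs).mpr ⟨hr, ?_⟩
  refine (AddEquiv.isWeaklyRegular_congr
    (e := quotSMulTopAddEquivOfSurjective f hf r hker) (as := rs) (bs := rs.map f) ?_).mpr h
  refine List.forall₂_map_right_iff.mpr (List.forall₂_same.mpr fun a _ x => ?_)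
  induction x using Submodule.Quotient.induction_on with
  | _ y =>
    rw [← Submodule.Quotient.mk_smul, quotSMulTopAddEquivOfSurjective_mk,
      quotSMulTopAddEquivOfSurjective_mk, smul_eq_mul, map_mul, smul_eq_mul]

end Fermat.Agent.H5
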