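import Mathlib
import Fermat.Agent.H5.RegSeqSurj

namespace Fermat.Agent.H5

open RingTheory.Sequence

section killX0

variable (S : Type*) [CommRing S] (n : ℕ)

/-- The ring hom `S⟦X₀,…,Xₙ⟧ → S⟦X₀,…,Xₙ₋₁⟧` sending `X₀ ↦ 0` and `Xᵢ₊₁ ↦ Xᵢ`. -/
noncomputable def killX0 : MvPowerSeries (Fin (n + 1)) S →+* MvPowerSeries (Fin n) S :=
  (PowerSeries.constantCoeff (R := MvPowerSeries (Fin n) S)).comp
    (MvPowerSeries.finSuccEquiv S n).toRingEquiv.toRingHom

variable {S n}

theorem killX0_apply (f : MvPowerSeries (Fin (n + 1)) S) :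
    killX0 S n f = PowerSeries.constantCoeff (MvPowerSeries.finSuccEquiv S n f) := rfl

@[simp] theorem killX0_X_zero : killX0 S n (MvPowerSeries.X 0) = 0 := by
  simp [killX0_apply]

@[simp] theorem killX0_X_succ (j : Fin n) :
    killX0 S n (MvPowerSeries.X j.succ) = MvPowerSeries.X j := by
  simp [killX0_apply]

@[simp] theorem killX0_C (s : S) :
    killX0 S n (MvPowerSeries.C s) = MvPowerSeries.C s := by
  simp [killX0_apply]

theorem killX0_surjective : Function.Surjective (killX0 S n) := by
  intro g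
  refine ⟨(MvPowerSeries.finSuccEquiv S n).symm (PowerSeries.C g), ?_⟩
  simp [killX0_apply]

theorem ker_killX0 : RingHom.ker (killX0 S n) = Ideal.span {MvPowerSeries.X 0} := by
  ext f
  rw [RingHom.mem_ker, killX0_apply, ← PowerSeries.X_dvd_iff, Ideal.mem_span_singleton]
  constructor
  · rintro ⟨g, hg⟩
    refine ⟨(MvPowerSeries.finSuccEquiv S n).symm g, ?_⟩
    apply (MvPowerSeries.finSuccEquiv S n).injective
    rw [hg, map_mul, MvPowerSeries.finSuccEquiv_X_zero, AlgEquiv.apply_symm_apply]
  · rintro ⟨g, rfl⟩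
    rw [map_mul, MvPowerSeries.finSuccEquiv_X_zero]
    exact dvd_mul_right _ _

theorem constantCoeff_killX0 (f : MvPowerSeries (Fin (n + 1)) S) :
    MvPowerSeries.constantCoeff (killX0 S n f) = MvPowerSeries.constantCoeff f := by
  rw [killX0_apply, ← PowerSeries.coeff_zero_eq_constantCoeff_apply,
    ← MvPowerSeries.coeff_zero_eq_constantCoeff_apply, MvPowerSeries.coeff_coeff_finSuccEquiv,
    ← MvPowerSeries.coeff_zero_eq_constantCoeff_apply, Finsupp.cons_zero_zero]

end killX0

/-- The list `[X₀, …, Xₙ₋₁, C s]` in `S⟦X₀,…,Xₙ₋₁⟧`. -/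
noncomputable def varList (S : Type*) [CommRing S] (n : ℕ) (s : S) :
    List (MvPowerSeries (Fin n) S) :=
  List.ofFn (fun i : Fin n => (MvPowerSeries.X i : MvPowerSeries (Fin n) S)) ++
    [MvPowerSeries.C s]

theorem varList_length (S : Type*) [CommRing S] (n : ℕ) (s : S) :
    (varList S n s).length = n + 1 := by
  simp [varList]

theorem varList_succ (S : Type*) [CommRing S] (n : ℕ) (s : S) :
    varList S (n + 1) s = MvPowerSeries.X 0 ::
      (List.ofFn (fun i : Fin n => (MvPowerSeries.X i.succ : MvPowerSeries (Fin (n + 1)) S)) ++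
        [MvPowerSeries.C s]) := by
  simp [varList, List.ofFn_succ]

theorem varList_succ_tail_map (S : Type*) [CommRing S] (n : ℕ) (s : S) :
    (List.ofFn (fun i : Fin n => (MvPowerSeries.X i.succ : MvPowerSeries (Fin (n + 1)) S)) ++
        [MvPowerSeries.C s]).map (killX0 S n) = varList S n s := by
  simp [varList, List.map_ofFn, Function.comp_def]

/-- `[X₀, …, Xₙ₋₁, C s]` is a weakly regular sequence on `S⟦X₀,…,Xₙ₋₁⟧` for a domain `S`
and `s ≠ 0`. -/
theorem isWeaklyRegular_varList (S : Type*) [CommRing S] [IsDomain S] (n : ℕ) (s : S)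
    (hs : s ≠ 0) : IsWeaklyRegular (MvPowerSeries (Fin n) S) (varList S n s) := by
  induction n with
  | zero =>
    have : varList S 0 s = [MvPowerSeries.C s] := by simp [varList]
    rw [this, isWeaklyRegular_singleton_iff]
    apply IsLeftRegular.isSMulRegular
    refine (IsRegular.of_ne_zero' ?_).left
    intro h
    exact hs (MvPowerSeries.C_injective (by rw [h, map_zero]))
  | succ n ih =>
    rw [varList_succ]
    refine isWeaklyRegular_cons_of_surjective (killX0 S n) killX0_surjective _ ?_ ker_killX0 _ ?_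
    · apply IsLeftRegular.isSMulRegular
      refine (IsRegular.of_ne_zero' ?_).left
      intro h
      have h1 := congrArg (MvPowerSeries.coeff (Finsupp.single (0 : Fin (n + 1)) 1)) h
      rw [MvPowerSeries.coeff_X, if_pos rfl, map_zero] at h1
      exact one_ne_zero h1
    · rw [varList_succ_tail_map]
      exact ih

theorem mem_maximalIdeal_mvPowerSeries_iff {σ : Type*} {S : Type*} [CommRing S] [IsLocalRing S]
    (f : MvPowerSeries σ S) :
    f ∈ IsLocalRing.maximalIdeal (MvPowerSeries σ S) ↔
      MvPowerSeries.constantCoeff f ∈ IsLocalRing.maximalIdeal S := by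
  rw [IsLocalRing.mem_maximalIdeal, IsLocalRing.mem_maximalIdeal, mem_nonunits_iff,
    mem_nonunits_iff, MvPowerSeries.isUnit_iff_constantCoeff]

theorem comap_killX0_maximalIdeal (S : Type*) [CommRing S] [IsLocalRing S] (n : ℕ) :
    Ideal.comap (killX0 S n) (IsLocalRing.maximalIdeal (MvPowerSeries (Fin n) S)) =
      IsLocalRing.maximalIdeal (MvPowerSeries (Fin (n + 1)) S) := by
  ext f
  rw [Ideal.mem_comap, mem_maximalIdeal_mvPowerSeries_iff, mem_maximalIdeal_mvPowerSeries_iff,
    constantCoeff_killX0]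

/-- The maximal ideal of `S⟦X₀,…,Xₙ₋₁⟧` is generated by `[X₀, …, Xₙ₋₁, C s]` when the maximal
ideal of the local ring `S` is generated by `s`. -/
theorem maximalIdeal_eq_ofList_varList (S : Type*) [CommRing S] [IsLocalRing S] (n : ℕ) (s : S)
    (hs : IsLocalRing.maximalIdeal S = Ideal.span {s}) :
    IsLocalRing.maximalIdeal (MvPowerSeries (Fin n) S) = Ideal.ofList (varList S n s) := by
  induction n with
  | zero =>
    have hv : varList S 0 s = [MvPowerSeries.C s] := by simp [varList]
    rw [hv, Ideal.ofList_singleton]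
    ext f
    rw [mem_maximalIdeal_mvPowerSeries_iff, hs, Ideal.mem_span_singleton,
      Ideal.mem_span_singleton]
    constructor
    · rintro ⟨c, hc⟩
      refine ⟨MvPowerSeries.C c, ?_⟩
      have hf : f = MvPowerSeries.C (MvPowerSeries.constantCoeff f) :=
        ((MvPowerSeries.isEmptyEquiv (Fin 0) S).symm_apply_apply f).symm
      rw [hf, hc, map_mul]
    · rintro ⟨g, rfl⟩
      exact ⟨MvPowerSeries.constantCoeff g, by simp⟩
  | succ n ih =>
    rw [← comap_killX0_maximalIdeal, ih, ← varList_succ_tail_map, ← Ideal.map_ofList,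
      Ideal.comap_map_of_surjective _ killX0_surjective, ← RingHom.ker_eq_comap_bot, ker_killX0,
      varList_succ, Ideal.ofList_cons, sup_comm]

theorem varList_subset_maximalIdeal (S : Type*) [CommRing S] [IsLocalRing S] (n : ℕ) (s : S)
    (hs : s ∈ IsLocalRing.maximalIdeal S) :
    ∀ r ∈ varList S n s, r ∈ IsLocalRing.maximalIdeal (MvPowerSeries (Fin n) S) := by
  intro r hr
  rw [mem_maximalIdeal_mvPowerSeries_iff]
  simp only [varList, List.mem_append, List.mem_ofFn, List.mem_singleton] at hr
  rcases hr with ⟨i, rfl⟩ | rfl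
  · simp
  · simpa using hs

end Fermat.Agent.H5
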